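import Fermat.Statements.S49
import Fermat.Prelude.Def_CuspForm_HeckeAlgebra
import Fermat.Prelude.Def_CuspForm_IntegralStructure
import Fermat.Prelude.Thm_CuspForm_intLattice_fg
import Fermat.Prelude.Thm_CuspForm_mem_intLattice_of_mem_heckeAlgebra
import Fermat.Prelude.Thm_ModularFormClass_qCoeff_heckeT
import Fermat.Prelude.Thm_ModularFormClass_qCoeff_heckeU
import Fermat.Prelude.Thm_CongruenceSubgroup_one_mem_strictPeriods_Gamma0

set_option autoImplicit false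
open CuspForm EisensteinWeightOne CongruenceSubgroup ModularFormClass

namespace Fermat.Agent.S49C

variable {N : ℕ}

/-! ### Basic `qCoeff` calculus on `CuspForm (Gamma0 N) 2` -/

theorem qCoeff_add (f g : CuspForm (Gamma0 N) 2) (n : ℕ) :
    qCoeff (⇑(f + g)) n = qCoeff (⇑f) n + qCoeff (⇑g) n := by
  unfold qCoeff
  rw [FunLike.coe_add, ModularForm.qExpansion_add one_pos
    (CongruenceSubgroup.one_mem_strictPeriods_Gamma0 N) f g, map_add]

theorem qCoeff_sub (f g : CuspForm (Gamma0 N) 2) (n : ℕ) :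
    qCoeff (⇑(f - g)) n = qCoeff (⇑f) n - qCoeff (⇑g) n := by
  unfold qCoeff
  rw [FunLike.coe_sub, ModularForm.qExpansion_sub one_pos
    (CongruenceSubgroup.one_mem_strictPeriods_Gamma0 N) f g, map_sub]

theorem qCoeff_smul (c : ℂ) (f : CuspForm (Gamma0 N) 2) (n : ℕ) :
    qCoeff (⇑(c • f)) n = c * qCoeff (⇑f) n := by
  unfold qCoeff
  rw [FunLike.coe_smul, ModularForm.qExpansion_smul one_pos
    (CongruenceSubgroup.one_mem_strictPeriods_Gamma0 N) c f, PowerSeries.coeff_smul,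
    smul_eq_mul]

theorem qCoeff_neg (f : CuspForm (Gamma0 N) 2) (n : ℕ) :
    qCoeff (⇑(-f)) n = - qCoeff (⇑f) n := by
  unfold qCoeff
  rw [FunLike.coe_neg, ModularForm.qExpansion_neg one_pos
    (CongruenceSubgroup.one_mem_strictPeriods_Gamma0 N) f, map_neg]

theorem qCoeff_zero_index (f : CuspForm (Gamma0 N) 2) : qCoeff (⇑f) 0 = 0 :=
  CuspFormClass.qExpansion_coeff_zero f one_pos
    (CongruenceSubgroup.one_mem_strictPeriods_Gamma0 N)

theorem qCoeff_zero_form (n : ℕ) : qCoeff (⇑(0 : CuspForm (Gamma0 N) 2)) n = 0 := by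
  unfold qCoeff
  rw [FunLike.coe_zero, UpperHalfPlane.qExpansion_zero, map_zero]

theorem qCoeff_heckeTLin {ℓ : ℕ} (hℓ : ℓ.Prime) (hℓN : ¬ ℓ ∣ N)
    (f : CuspForm (Gamma0 N) 2) (n : ℕ) :
    qCoeff (⇑(CuspForm.heckeTLin 2 hℓ hℓN f)) n =
      qCoeff (⇑f) (n * ℓ) + if ℓ ∣ n then (ℓ : ℂ) * qCoeff (⇑f) (n / ℓ) else 0 := by
  rw [CuspForm.coe_heckeTLin_apply, ModularFormClass.qCoeff_heckeT f
    (CongruenceSubgroup.one_mem_strictPeriods_Gamma0 N) hℓ.ne_zero n, ModularForm.coeffHeckeT]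
  norm_num

theorem qCoeff_heckeULin [NeZero N] {q : ℕ} (hq : q.Prime) (hqN : q ∣ N)
    (f : CuspForm (Gamma0 N) 2) (n : ℕ) :
    qCoeff (⇑(CuspForm.heckeULin 2 hqN f)) n = qCoeff (⇑f) (n * q) := by
  rw [CuspForm.coe_heckeULin_apply, ModularFormClass.qCoeff_heckeU f
    (CongruenceSubgroup.one_mem_strictPeriods_Gamma0 N) hq.ne_zero n, ModularForm.coeffHeckeU]

/-! ### Integral forms -/

/-- A cusp form all of whose `q`-coefficients are integers. -/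
def IsInt (f : CuspForm (Gamma0 N) 2) : Prop :=
  ∀ n : ℕ, ∃ m : ℤ, qCoeff (⇑f) n = (m : ℂ)

theorem isInt_of_mem_qIntegralSet {f : CuspForm (Gamma0 N) 2} (hf : f ∈ qIntegralSet N) :
    IsInt f := by
  intro n
  obtain ⟨m, hm⟩ := Subring.mem_bot.mp (hf n)
  exact ⟨m, hm.symm⟩

theorem mem_intLattice_of_isInt {f : CuspForm (Gamma0 N) 2} (hf : IsInt f) :
    f ∈ CuspForm.intLattice N 2 :=
  Submodule.subset_span hf

theorem isInt_of_mem_intLattice {f : CuspForm (Gamma0 N) 2}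
    (hf : f ∈ CuspForm.intLattice N 2) : IsInt f := by
  unfold CuspForm.intLattice at hf
  induction hf using Submodule.span_induction with
  | mem x hx => exact hx
  | zero => intro n; exact ⟨0, by rw [qCoeff_zero_form]; simp⟩
  | add x y _ _ hx hy =>
    intro n
    obtain ⟨a, ha⟩ := hx n
    obtain ⟨b, hb⟩ := hy n
    exact ⟨a + b, by rw [qCoeff_add, ha, hb]; push_cast; ring⟩
  | smul c x _ hx =>
    intro n
    obtain ⟨a, ha⟩ := hx n
    refine ⟨c * a, ?_⟩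
    rw [← Int.cast_smul_eq_zsmul ℂ c x, qCoeff_smul, ha]
    push_cast; ring

theorem span_intLattice_eq_top (h : CuspForm.HasIntegralBasis N) :
    Submodule.span ℂ ((CuspForm.intLattice N 2 : Submodule ℤ (CuspForm (Gamma0 N) 2)) :
      Set (CuspForm (Gamma0 N) 2)) = ⊤ := by
  rw [eq_top_iff, ← h]
  apply Submodule.span_mono
  intro f hf
  exact mem_intLattice_of_isInt (isInt_of_mem_qIntegralSet hf)

/-! ### Congruences mod 3 -/

theorem three_dvd_sub_chiNegThree (ℓ : ℕ) : (3 : ℤ) ∣ (ℓ : ℤ) - chiNegThree ℓ := by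
  unfold chiNegThree
  split_ifs <;> omega

theorem three_dvd_coeff_e1Chi3 {j : ℕ} (hj : j ≠ 0) :
    (3 : ℤ) ∣ PowerSeries.coeff j (e1Chi3In ℤ) := by
  unfold e1Chi3In e1Chi3
  rw [PowerSeries.coeff_map, PowerSeries.coeff_mk, if_neg hj]
  exact ⟨2 * sigmaChi j, by simp; ring⟩

theorem coeff_zero_e1Chi3 : PowerSeries.coeff 0 (e1Chi3In ℤ) = 1 := by
  unfold e1Chi3In e1Chi3
  rw [PowerSeries.coeff_map, PowerSeries.coeff_mk, if_pos rfl]
  simp

theorem three_dvd_bridgeProduct_sub (a : ℕ → ℤ) (n : ℕ) :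
    (3 : ℤ) ∣ PowerSeries.coeff n (bridgeProduct a) - a n := by
  unfold bridgeProduct
  rw [PowerSeries.coeff_mul, Finset.Nat.sum_antidiagonal_eq_sum_range_succ_mk,
    Finset.sum_range_succ]
  simp only [PowerSeries.coeff_mk, Nat.sub_self, coeff_zero_e1Chi3, mul_one, add_sub_cancel_right]
  apply Finset.dvd_sum
  intro k hk
  have hk' : k < n := Finset.mem_range.mp hk
  exact Dvd.dvd.mul_left (three_dvd_coeff_e1Chi3 (by omega)) _

end Fermat.Agent.S49C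

namespace Fermat.Agent.S49C

variable {N : ℕ}

/-! ### The family of all Hecke operators, indexed by primes -/

/-- `T_ℓ` for `ℓ ∤ N`, `U_ℓ` for `ℓ ∣ N`. -/
noncomputable def heckeFamily (N : ℕ) [NeZero N] (ℓ : {ℓ : ℕ // ℓ.Prime}) :
    Module.End ℂ (CuspForm (Gamma0 N) 2) :=
  if h : (ℓ : ℕ) ∣ N then CuspForm.heckeULin 2 h else CuspForm.heckeTLin 2 ℓ.2 h

theorem heckeFamily_of_dvd [NeZero N] {ℓ : ℕ} (hℓ : ℓ.Prime) (h : ℓ ∣ N) :
    heckeFamily N ⟨ℓ, hℓ⟩ = CuspForm.heckeULin 2 h := by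
  unfold heckeFamily
  rw [dif_pos h]

theorem heckeFamily_of_not_dvd [NeZero N] {ℓ : ℕ} (hℓ : ℓ.Prime) (h : ¬ ℓ ∣ N) :
    heckeFamily N ⟨ℓ, hℓ⟩ = CuspForm.heckeTLin 2 hℓ h := by
  unfold heckeFamily
  rw [dif_neg h]

theorem heckeFamily_mem_heckeGenerators [NeZero N] (ℓ : {ℓ : ℕ // ℓ.Prime}) :
    heckeFamily N ℓ ∈ CuspForm.heckeGenerators N 2 (∅ : Set ℕ) := by
  obtain ⟨ℓ, hℓ⟩ := ℓ
  by_cases h : ℓ ∣ N
  · rw [heckeFamily_of_dvd hℓ h]
    exact CuspForm.heckeULin_mem_heckeGenerators hℓ h (Set.notMem_empty _)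
  · rw [heckeFamily_of_not_dvd hℓ h]
    exact CuspForm.heckeTLin_mem_heckeGenerators hℓ h (Set.notMem_empty _)

theorem heckeFamily_commute [NeZero N] (i j : {ℓ : ℕ // ℓ.Prime}) :
    Commute (heckeFamily N i) (heckeFamily N j) :=
  CuspForm.commute_of_mem_heckeGenerators (heckeFamily_mem_heckeGenerators i)
    (heckeFamily_mem_heckeGenerators j)

theorem heckeFamily_mem_intLattice [NeZero N] (i : {ℓ : ℕ // ℓ.Prime})
    {f : CuspForm (Gamma0 N) 2} (hf : f ∈ CuspForm.intLattice N 2) :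
    heckeFamily N i f ∈ CuspForm.intLattice N 2 :=
  CuspForm.mem_intLattice_of_mem_heckeAlgebra one_le_two
    (Algebra.subset_adjoin (heckeFamily_mem_heckeGenerators i)) hf

/-- The weight-two Hecke "character" `ℓ ↦ ℓ` away from the level, `0` at the level. -/
def levelChar (N : ℕ) (ℓ : ℕ) : ℤ := if ℓ ∣ N then 0 else (ℓ : ℤ)

theorem qCoeff_heckeFamily [NeZero N] (ℓ : {ℓ : ℕ // ℓ.Prime})
    (f : CuspForm (Gamma0 N) 2) (n : ℕ) :
    qCoeff (⇑(heckeFamily N ℓ f)) n =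
      qCoeff (⇑f) (n * ℓ) +
        if (ℓ : ℕ) ∣ n then ((levelChar N ℓ : ℤ) : ℂ) * qCoeff (⇑f) (n / ℓ) else 0 := by
  obtain ⟨ℓ, hℓ⟩ := ℓ
  by_cases h : ℓ ∣ N
  · rw [heckeFamily_of_dvd hℓ h, qCoeff_heckeULin hℓ h]
    simp [levelChar, h]
  · rw [heckeFamily_of_not_dvd hℓ h, qCoeff_heckeTLin hℓ h]
    simp [levelChar, h]

/-! ### The mod 3 eigenvector -/

theorem three_dvd_levelChar_sub (N ℓ : ℕ) :
    (3 : ℤ) ∣ levelChar N ℓ - (if ℓ ∣ N then 0 else ((chiNegThree ℓ : ℤ) : ℤ)) := by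
  unfold levelChar
  split_ifs
  · simp
  · exact three_dvd_sub_chiNegThree ℓ

/-- Dividing an integral form all of whose coefficients are divisible by `3` by `3`. -/
theorem exists_eq_three_smul_of_forall_dvd {F : CuspForm (Gamma0 N) 2}
    (hF : ∀ n : ℕ, ∃ m : ℤ, qCoeff (⇑F) n = ((3 * m : ℤ) : ℂ)) :
    ∃ g ∈ CuspForm.intLattice N 2, F = ((3 : ℕ) : ℤ) • g := by
  refine ⟨(3 : ℂ)⁻¹ • F, mem_intLattice_of_isInt ?_, ?_⟩
  · intro n
    obtain ⟨m, hm⟩ := hF n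
    refine ⟨m, ?_⟩
    rw [qCoeff_smul, hm]
    push_cast
    field_simp
  · rw [← Int.cast_smul_eq_zsmul ℂ, smul_smul]
    norm_num

theorem exists_mod_three_data [NeZero N] {a : ℕ → ℤ}
    (heig : FormalHecke.IsEigensystem
      (fun ℓ => if ℓ ∣ N then 0 else ((chiNegThree ℓ : ℤ) : ℤ)) a)
    (hreal : CuspForm.IsLatticeRealized N a) :
    ∃ f ∈ CuspForm.intLattice N 2,
      (¬ ∃ g ∈ CuspForm.intLattice N 2, f = ((3 : ℕ) : ℤ) • g) ∧
      ∀ ℓ : {ℓ : ℕ // ℓ.Prime}, ∃ g ∈ CuspForm.intLattice N 2,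
        heckeFamily N ℓ f - (a ℓ) • f = ((3 : ℕ) : ℤ) • g := by
  obtain ⟨f, hfint, af, haf, hcong⟩ := hreal
  have hd : ∀ n, (3 : ℤ) ∣ af n - a n := fun n => by
    have h1 := hcong n
    have h2 := three_dvd_bridgeProduct_sub a n
    have := dvd_add h1 h2
    simpa using this
  refine ⟨f, mem_intLattice_of_isInt (isInt_of_mem_qIntegralSet hfint), ?_, ?_⟩
  · rintro ⟨g, hg, hfg⟩
    obtain ⟨m, hm⟩ := isInt_of_mem_intLattice hg 1
    have h1 : qCoeff (⇑f) 1 = ((3 * m : ℤ) : ℂ) := by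
      rw [hfg, ← Int.cast_smul_eq_zsmul ℂ, qCoeff_smul, hm]
      push_cast; ring
    rw [← haf 1] at h1
    have h2 : af 1 = 3 * m := by exact_mod_cast h1
    have h3 := hd 1
    rw [heig.1, h2] at h3
    omega
  · intro ℓ
    have hrew : heckeFamily N ℓ f - (a ℓ) • f
        = heckeFamily N ℓ f - ((a ℓ : ℤ) : ℂ) • f := by
      rw [Int.cast_smul_eq_zsmul ℂ]
    rw [hrew]
    apply exists_eq_three_smul_of_forall_dvd
    intro n
    have hE := heig.2 ℓ.1 ℓ.2 n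
    obtain ⟨k1, hk1⟩ := hd (n * ℓ)
    obtain ⟨k2, hk2⟩ := hd (n / ℓ)
    obtain ⟨k3, hk3⟩ := hd n
    obtain ⟨k4, hk4⟩ := three_dvd_levelChar_sub N ℓ
    rw [qCoeff_sub, qCoeff_smul, qCoeff_heckeFamily, ← haf, ← haf, ← haf]
    rw [mul_comm (ℓ : ℕ) n] at hE
    by_cases hdvd : (ℓ : ℕ) ∣ n
    · rw [if_pos hdvd] at hE ⊢
      refine ⟨k1 + levelChar N ℓ * k2 + k4 * a (n / ℓ) - a ℓ * k3, ?_⟩
      have : af (n * ℓ) + levelChar N ℓ * af (n / ℓ) - a ℓ * af n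
          = 3 * (k1 + levelChar N ℓ * k2 + k4 * a (n / ℓ) - a ℓ * k3) := by
        linear_combination hk1 + levelChar N ℓ * hk2 - a ℓ * hk3 + a (n / ℓ) * hk4 + hE
      exact_mod_cast this
    · rw [if_neg hdvd] at hE ⊢
      refine ⟨k1 - a ℓ * k3, ?_⟩
      have : af (n * ℓ) - a ℓ * af n = 3 * (k1 - a ℓ * k3) := by
        linear_combination hk1 - a ℓ * hk3 + hE
      rw [add_zero]
      exact_mod_cast this

end Fermat.Agent.S49C
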