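import Mathlib

/-!
# S49, Part A: the algebraic eigenvector lifting lemma (Deligne--Serre style)

A commuting family of endomorphisms of a complex vector space preserving a finitely generated
spanning lattice, together with a mod `p` eigenvector in the lattice, admits a genuine common
eigenvector whose eigenvalues are algebraic integers congruent to the mod `p` eigenvalues modulo
a maximal ideal over `p`.
-/

set_option autoImplicit false
set_option linter.style.haveILetI false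
set_option linter.unusedVariables false

namespace Fermat.Agent.S49A

open Module

theorem exists_common_eigenvector_aux {V : Type*} [AddCommGroup V] [Module ℂ V]
    [FiniteDimensional ℂ V]
    (S : Set (Module.End ℂ V)) (hS : ∀ s ∈ S, ∀ t ∈ S, Commute s t) :
    ∀ (n : ℕ) (W : Submodule ℂ V), Module.finrank ℂ W = n → W ≠ ⊥ →
      (∀ t ∈ S, ∀ w ∈ W, t w ∈ W) →
      ∃ g ∈ W, g ≠ 0 ∧ ∀ t ∈ S, ∃ c : ℂ, t g = c • g := by
  intro n
  induction n using Nat.strong_induction_on with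
  | _ n ih =>
    intro W hn hW hWS
    by_cases hscal : ∀ t ∈ S, ∃ c : ℂ, ∀ w ∈ W, t w = c • w
    · obtain ⟨g, hgW, hg0⟩ := Submodule.exists_mem_ne_zero_of_ne_bot hW
      exact ⟨g, hgW, hg0, fun t ht => (hscal t ht).imp fun c hc => hc g hgW⟩
    · push Not at hscal
      obtain ⟨t, ht, hns⟩ := hscal
      have hWnt : Nontrivial W := Submodule.nontrivial_iff_ne_bot.mpr hW
      obtain ⟨μ, hμ⟩ := Module.End.exists_eigenvalue (t.restrict (hWS t ht))
      obtain ⟨w0, hw0⟩ := hμ.exists_hasEigenvector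
      have hw0' : t (w0 : V) = μ • (w0 : V) := by
        have h := hw0.apply_eq_smul
        have h2 := congrArg Subtype.val h
        simpa using h2
      have hw0ne : (w0 : V) ≠ 0 := fun h => hw0.2 (Subtype.ext h)
      set W' : Submodule ℂ V := W ⊓ LinearMap.ker (t - μ • (1 : Module.End ℂ V)) with hW'
      have hmemW' : ∀ w, w ∈ W' ↔ w ∈ W ∧ t w = μ • w := by
        intro w
        simp only [hW', Submodule.mem_inf, LinearMap.mem_ker, LinearMap.sub_apply,
          LinearMap.smul_apply, Module.End.one_apply, sub_eq_zero]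
      have hW'le : W' ≤ W := inf_le_left
      obtain ⟨w1, hw1W, hw1⟩ := hns μ
      have hW'lt : W' < W := by
        refine lt_of_le_of_ne hW'le fun h => hw1 ?_
        have : w1 ∈ W' := h ▸ hw1W
        exact ((hmemW' w1).1 this).2
      have hfin : Module.finrank ℂ W' < n := hn ▸ Submodule.finrank_lt_finrank_of_lt hW'lt
      have hW'ne : W' ≠ ⊥ := by
        intro h
        have : (w0 : V) ∈ W' := (hmemW' _).2 ⟨w0.2, hw0'⟩
        rw [h, Submodule.mem_bot] at this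
        exact hw0ne this
      have hW'S : ∀ s ∈ S, ∀ w ∈ W', s w ∈ W' := by
        intro s hs w hw
        rw [hmemW'] at hw ⊢
        refine ⟨hWS s hs w hw.1, ?_⟩
        have hc : t (s w) = s (t w) := by
          have := (hS t ht s hs).eq
          exact congrArg (fun e : Module.End ℂ V => e w) this
        rw [hc, hw.2, map_smul]
      obtain ⟨g, hgW', hg0, hg⟩ := ih _ hfin W' rfl hW'ne hW'S
      exact ⟨g, hW'le hgW', hg0, hg⟩

theorem exists_common_eigenvector {V : Type*} [AddCommGroup V] [Module ℂ V]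
    [FiniteDimensional ℂ V]
    (S : Set (Module.End ℂ V)) (hS : ∀ s ∈ S, ∀ t ∈ S, Commute s t)
    (W : Submodule ℂ V) (hW : W ≠ ⊥) (hWS : ∀ t ∈ S, ∀ w ∈ W, t w ∈ W) :
    ∃ g ∈ W, g ≠ 0 ∧ ∀ t ∈ S, ∃ c : ℂ, t g = c • g :=
  exists_common_eigenvector_aux S hS _ W rfl hW hWS


theorem exists_killer_aux {V : Type*} [AddCommGroup V] [Module ℂ V]
    [FiniteDimensional ℂ V]
    (A : Set (Module.End ℂ V)) (hA : ∀ s ∈ A, ∀ t ∈ A, Commute s t)
    (hmul : ∀ s ∈ A, ∀ t ∈ A, s * t ∈ A) (h1 : (1 : Module.End ℂ V) ∈ A)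
    (M : Module.End ℂ V → Prop) (hM1 : ¬ M 1)
    (hMmul : ∀ s ∈ A, ∀ t ∈ A, ¬ M s → ¬ M t → ¬ M (s * t))
    (H : ∀ g : V, g ≠ 0 → (∀ t ∈ A, ∃ c : ℂ, t g = c • g) → ∃ t ∈ A, t g = 0 ∧ ¬ M t) :
    ∀ (n : ℕ) (W : Submodule ℂ V), Module.finrank ℂ W = n →
      (∀ t ∈ A, ∀ w ∈ W, t w ∈ W) →
      ∃ t ∈ A, ¬ M t ∧ ∀ w ∈ W, t w = 0 := by
  intro n
  induction n using Nat.strong_induction_on with
  | _ n ih =>
    intro W hn hWA
    by_cases hW : W = ⊥
    · refine ⟨1, h1, hM1, fun w hw => ?_⟩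
      rw [hW, Submodule.mem_bot] at hw
      simp [hw]
    · obtain ⟨g, hgW, hg0, hg⟩ := exists_common_eigenvector A hA W hW hWA
      obtain ⟨t0, ht0A, ht0g, ht0M⟩ := H g hg0 hg
      set W' : Submodule ℂ V := W.map t0 with hW'
      have hW'A : ∀ s ∈ A, ∀ w ∈ W', s w ∈ W' := by
        rintro s hs _ ⟨w, hw, rfl⟩
        refine ⟨s w, hWA s hs w hw, ?_⟩
        have := (hA t0 ht0A s hs).eq
        exact congrArg (fun e : Module.End ℂ V => e w) this
      have hfin : Module.finrank ℂ W' < n := by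
        have hrn := LinearMap.finrank_range_add_finrank_ker (t0.domRestrict W)
        have hrange : LinearMap.range (t0.domRestrict W) = W' := by
          rw [hW', LinearMap.range_domRestrict]
        have hker : 0 < Module.finrank ℂ (LinearMap.ker (t0.domRestrict W)) := by
          rw [Module.finrank_pos_iff_exists_ne_zero]
          refine ⟨⟨⟨g, hgW⟩, ?_⟩, ?_⟩
          · rw [LinearMap.mem_ker]
            exact ht0g
          · intro h
            apply hg0
            have := congrArg (fun x : LinearMap.ker (t0.domRestrict W) => ((x : W) : V)) h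
            simpa using this
        rw [hrange] at hrn
        omega
      obtain ⟨t1, ht1A, ht1M, ht1⟩ := ih _ hfin W' rfl hW'A
      refine ⟨t1 * t0, hmul t1 ht1A t0 ht0A, hMmul t1 ht1A t0 ht0A ht1M ht0M, fun w hw => ?_⟩
      rw [Module.End.mul_apply]
      exact ht1 _ ⟨w, hw, rfl⟩

theorem exists_eigenvector_ker_imp {V : Type*} [AddCommGroup V] [Module ℂ V]
    [FiniteDimensional ℂ V]
    (A : Set (Module.End ℂ V)) (hA : ∀ s ∈ A, ∀ t ∈ A, Commute s t)
    (hmul : ∀ s ∈ A, ∀ t ∈ A, s * t ∈ A) (h1 : (1 : Module.End ℂ V) ∈ A)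
    (M : Module.End ℂ V → Prop) (hM1 : ¬ M 1) (hM0 : M 0)
    (hMmul : ∀ s ∈ A, ∀ t ∈ A, ¬ M s → ¬ M t → ¬ M (s * t)) :
    ∃ g : V, g ≠ 0 ∧ (∀ t ∈ A, ∃ c : ℂ, t g = c • g) ∧ ∀ t ∈ A, t g = 0 → M t := by
  by_contra H
  push Not at H
  have H' : ∀ g : V, g ≠ 0 → (∀ t ∈ A, ∃ c : ℂ, t g = c • g) → ∃ t ∈ A, t g = 0 ∧ ¬ M t := H
  obtain ⟨t, -, htM, ht⟩ := exists_killer_aux A hA hmul h1 M hM1 hMmul H' _ ⊤ rfl
    (fun _ _ _ _ => Submodule.mem_top)
  have : t = 0 := LinearMap.ext fun v => by simpa using ht v Submodule.mem_top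
  exact htM (this ▸ hM0)


/-- finite-dimensionality from a spanning finitely generated lattice -/
theorem finiteDimensional_of_fg_span {V : Type*} [AddCommGroup V] [Module ℂ V]
    (L : Submodule ℤ V) (hLfg : L.FG) (hspan : Submodule.span ℂ (L : Set V) = ⊤) :
    FiniteDimensional ℂ V := by
  obtain ⟨s, hs⟩ := hLfg
  refine ⟨⟨s, ?_⟩⟩
  rw [eq_top_iff, ← hspan, Submodule.span_le]
  intro v hv
  rw [← hs] at hv
  exact Submodule.span_subset_span ℤ ℂ _ hv

/-- the divisibility lemma -/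
theorem dvd_of_smul_mem {V : Type*} [AddCommGroup V]
    (L : AddSubgroup V) (p : ℕ) (hp : p.Prime)
    (f : V) (hf : f ∈ L) (hfp : ¬ ∃ g ∈ L, f = (p : ℤ) • g)
    (n : ℤ) (hn : ∃ g ∈ L, n • f = (p : ℤ) • g) : (p : ℤ) ∣ n := by
  by_contra hdvd
  have hcop : IsCoprime n (p : ℤ) := by
    rw [isCoprime_comm]
    exact (Nat.prime_iff_prime_int.mp hp).coprime_iff_not_dvd.mpr hdvd
  obtain ⟨u, v, huv⟩ := hcop
  obtain ⟨g, hg, hng⟩ := hn
  apply hfp
  refine ⟨u • g + v • f, L.add_mem (L.zsmul_mem hg u) (L.zsmul_mem hf v), ?_⟩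
  have h1 : f = (u * n + v * (p : ℤ)) • f := by rw [huv, one_smul]
  rw [add_smul, mul_smul, hng, mul_smul] at h1
  rw [smul_add, smul_comm (p : ℤ) u g, smul_comm (p : ℤ) v f]
  exact h1


section Structure

variable {V : Type*} [AddCommGroup V] [Module ℂ V]
    (L : Submodule ℤ V) {ι : Type*} (T : ι → Module.End ℂ V)

/-- every element of the adjoin preserves `L` and acts on `f` as an integer modulo `p L` -/
theorem adjoin_structure
    (hL : ∀ i, ∀ v ∈ L, T i v ∈ L)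
    (p : ℕ) (f : V) (a : ι → ℤ)
    (ha : ∀ i, ∃ g ∈ L, T i f - (a i) • f = (p : ℤ) • g)
    (t : Module.End ℂ V) (ht : t ∈ Algebra.adjoin ℤ (Set.range T)) :
    (∀ v ∈ L, t v ∈ L) ∧ ∃ n : ℤ, ∃ g ∈ L, t f = n • f + (p : ℤ) • g := by
  induction ht using Algebra.adjoin_induction with
  | mem x hx =>
    obtain ⟨i, rfl⟩ := hx
    refine ⟨hL i, a i, ?_⟩
    obtain ⟨g, hg, hgi⟩ := ha i
    exact ⟨g, hg, by rw [← hgi]; abel⟩
  | algebraMap r =>
    refine ⟨fun v hv => ?_, r, 0, L.zero_mem, ?_⟩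
    · rw [Algebra.algebraMap_eq_smul_one, LinearMap.smul_apply, Module.End.one_apply]
      exact L.smul_mem r hv
    · rw [Algebra.algebraMap_eq_smul_one, LinearMap.smul_apply, Module.End.one_apply]
      simp
  | add x y hx hy ihx ihy =>
    obtain ⟨hxL, n, g, hg, hxf⟩ := ihx
    obtain ⟨hyL, m, g', hg', hyf⟩ := ihy
    refine ⟨fun v hv => ?_, n + m, g + g', L.add_mem hg hg', ?_⟩
    · rw [LinearMap.add_apply]
      exact L.add_mem (hxL v hv) (hyL v hv)
    · rw [LinearMap.add_apply, hxf, hyf, add_smul, smul_add]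
      abel
  | mul x y hx hy ihx ihy =>
    obtain ⟨hxL, n, g, hg, hxf⟩ := ihx
    obtain ⟨hyL, m, g', hg', hyf⟩ := ihy
    refine ⟨fun v hv => ?_, m * n, m • g + x g', L.add_mem (L.smul_mem m hg) (hxL g' hg'), ?_⟩
    · rw [Module.End.mul_apply]
      exact hxL _ (hyL v hv)
    · rw [Module.End.mul_apply, hyf, map_add, map_zsmul, map_zsmul, hxf, smul_add, smul_add,
        mul_smul, smul_comm m (p : ℤ) g]
      abel

end Structure


section Restriction

variable {V : Type*} [AddCommGroup V] [Module ℂ V]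
    (L : Submodule ℤ V) {ι : Type*} (T : ι → Module.End ℂ V)

/-- the restriction map from the adjoin to `End_ℤ L` -/
noncomputable def resL (hpres : ∀ t ∈ Algebra.adjoin ℤ (Set.range T), ∀ v ∈ L, t v ∈ L) :
    ↥(Algebra.adjoin ℤ (Set.range T)) →ₗ[ℤ] (↥L →ₗ[ℤ] ↥L) where
  toFun t := LinearMap.restrict ((t : Module.End ℂ V).restrictScalars ℤ) (hpres t.1 t.2)
  map_add' _ _ := LinearMap.ext fun _ => Subtype.ext rfl
  map_smul' _ _ := LinearMap.ext fun _ => Subtype.ext rfl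

theorem resL_injective (hspan : Submodule.span ℂ (L : Set V) = ⊤)
    (hpres : ∀ t ∈ Algebra.adjoin ℤ (Set.range T), ∀ v ∈ L, t v ∈ L) :
    Function.Injective (resL L T hpres) := by
  rw [← LinearMap.ker_eq_bot, LinearMap.ker_eq_bot']
  intro t ht
  refine Subtype.ext (LinearMap.ext_on hspan fun v hv => ?_)
  have h := congrArg (fun e : ↥L →ₗ[ℤ] ↥L => ((e ⟨v, hv⟩ : L) : V)) ht
  exact h

theorem adjoin_moduleFinite (hLfg : L.FG) (hspan : Submodule.span ℂ (L : Set V) = ⊤)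
    (hpres : ∀ t ∈ Algebra.adjoin ℤ (Set.range T), ∀ v ∈ L, t v ∈ L) :
    Module.Finite ℤ ↥(Algebra.adjoin ℤ (Set.range T)) := by
  haveI : Module.Finite ℤ ↥L := Module.Finite.iff_fg.mpr hLfg
  haveI : IsAddTorsionFree V := .of_isTorsionFree ℂ _
  haveI : Module.Free ℤ ↥L := Module.free_of_finite_type_torsion_free'
  exact Module.Finite.of_injective (resL L T hpres) (resL_injective L T hspan hpres)

end Restriction


section ModPSection

variable {V : Type*} [AddCommGroup V] [Module ℂ V]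
    (L : Submodule ℤ V) {ι : Type*} (T : ι → Module.End ℂ V)

/-- membership in the "mod p" ideal, as a predicate on endomorphisms -/
def ModP (p : ℕ) (f : V) (t : Module.End ℂ V) : Prop := ∃ g ∈ L, t f = (p : ℤ) • g

theorem modP_iff_dvd (hL : ∀ i, ∀ v ∈ L, T i v ∈ L)
    (p : ℕ) (hp : p.Prime) (f : V) (hf : f ∈ L) (hfp : ¬ ∃ g ∈ L, f = (p : ℤ) • g)
    (t : Module.End ℂ V) (n : ℤ) (hn : ∃ g ∈ L, t f = n • f + (p : ℤ) • g) :
    ModP L p f t ↔ (p : ℤ) ∣ n := by
  obtain ⟨g, hg, htf⟩ := hn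
  constructor
  · rintro ⟨g', hg', htf'⟩
    refine dvd_of_smul_mem L.toAddSubgroup p hp f hf hfp n ⟨g' - g, L.sub_mem hg' hg, ?_⟩
    rw [smul_sub, ← htf', htf]
    abel
  · rintro ⟨k, rfl⟩
    refine ⟨k • f + g, L.add_mem (L.smul_mem k hf) hg, ?_⟩
    rw [htf, smul_add, mul_smul]

theorem not_modP_mul (hL : ∀ i, ∀ v ∈ L, T i v ∈ L)
    (p : ℕ) (hp : p.Prime) (f : V) (hf : f ∈ L) (hfp : ¬ ∃ g ∈ L, f = (p : ℤ) • g)
    (a : ι → ℤ) (ha : ∀ i, ∃ g ∈ L, T i f - (a i) • f = (p : ℤ) • g)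
    (s : Module.End ℂ V) (hs : s ∈ Algebra.adjoin ℤ (Set.range T))
    (t : Module.End ℂ V) (ht : t ∈ Algebra.adjoin ℤ (Set.range T))
    (hsM : ¬ ModP L p f s) (htM : ¬ ModP L p f t) : ¬ ModP L p f (s * t) := by
  obtain ⟨hsL, m, g, hg, hsf⟩ := adjoin_structure L T hL p f a ha s hs
  obtain ⟨htL, n, g', hg', htf⟩ := adjoin_structure L T hL p f a ha t ht
  rw [modP_iff_dvd L T hL p hp f hf hfp s m ⟨g, hg, hsf⟩] at hsM
  rw [modP_iff_dvd L T hL p hp f hf hfp t n ⟨g', hg', htf⟩] at htM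
  have hst : ∃ g'' ∈ L, (s * t) f = (n * m) • f + (p : ℤ) • g'' := by
    refine ⟨n • g + s g', L.add_mem (L.smul_mem n hg) (hsL g' hg'), ?_⟩
    rw [Module.End.mul_apply, htf, map_add, map_zsmul, map_zsmul, hsf, smul_add, smul_add,
      mul_smul, smul_comm n (p : ℤ) g]
    abel
  rw [modP_iff_dvd L T hL p hp f hf hfp (s * t) (n * m) hst]
  intro h
  rcases (Nat.prime_iff_prime_int.mp hp).dvd_or_dvd h with h | h
  · exact htM h
  · exact hsM h

end ModPSection


section LyingOver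

open scoped IsMulCommutative

/-- Abstract lying-over step: a commutative ring `A` integral over `ℤ`, a ring hom `χ : A → ℂ`,
a prime ideal `𝔪` of `A` containing `ker χ`; then there is a maximal ideal of `ℤ̄` containing the
image of `𝔪`. -/
theorem exists_maximal_over {A : Type*} [CommRing A] [Algebra.IsIntegral ℤ A]
    (χ : A →+* ℂ) (𝔪 : Ideal A) [𝔪.IsPrime] (hker : RingHom.ker χ ≤ 𝔪) :
    ∃ (χ' : A →+* integralClosure ℤ ℂ) (𝔪' : Ideal (integralClosure ℤ ℂ)),
      (∀ t, ((χ' t : integralClosure ℤ ℂ) : ℂ) = χ t) ∧ 𝔪'.IsMaximal ∧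
      ∀ t ∈ 𝔪, χ' t ∈ 𝔪' := by
  have hint : ∀ t : A, χ t ∈ integralClosure ℤ ℂ := fun t =>
    (Algebra.IsIntegral.isIntegral (R := ℤ) t).map χ.toIntAlgHom
  let χ' : A →+* integralClosure ℤ ℂ := χ.codRestrict (integralClosure ℤ ℂ) hint
  have hχ' : ∀ t, ((χ' t : integralClosure ℤ ℂ) : ℂ) = χ t := fun t => rfl
  letI : Algebra A (integralClosure ℤ ℂ) := χ'.toAlgebra
  haveI : IsScalarTower ℤ A (integralClosure ℤ ℂ) :=
    IsScalarTower.of_algebraMap_eq fun x => by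
      simp
  haveI : Algebra.IsIntegral A (integralClosure ℤ ℂ) :=
    ⟨fun x => (Algebra.IsIntegral.isIntegral (R := ℤ) x).tower_top⟩
  have hker' : (⊥ : Ideal (integralClosure ℤ ℂ)).comap (algebraMap A (integralClosure ℤ ℂ)) ≤ 𝔪 := by
    intro t ht
    apply hker
    rw [Ideal.mem_comap, Ideal.mem_bot] at ht
    rw [RingHom.mem_ker, ← hχ' t]
    have : (χ' t : integralClosure ℤ ℂ) = 0 := ht
    rw [this]
    rfl
  obtain ⟨Q, -, hQprime, hQ⟩ := Ideal.exists_ideal_over_prime_of_isIntegral 𝔪 ⊥ hker'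
  obtain ⟨𝔪', h𝔪'max, hQ𝔪'⟩ := Ideal.exists_le_maximal Q hQprime.ne_top
  refine ⟨χ', 𝔪', hχ', h𝔪'max, fun t ht => hQ𝔪' ?_⟩
  have : t ∈ Q.comap (algebraMap A (integralClosure ℤ ℂ)) := hQ ▸ ht
  exact this

end LyingOver


section Main

open scoped IsMulCommutative

theorem exists_eigenvector_lift
    {V : Type*} [AddCommGroup V] [Module ℂ V]
    (L : Submodule ℤ V) (hLfg : L.FG) (hspan : Submodule.span ℂ (L : Set V) = ⊤)
    {ι : Type*} (T : ι → Module.End ℂ V)
    (hcomm : ∀ i j, Commute (T i) (T j))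
    (hL : ∀ i, ∀ v ∈ L, T i v ∈ L)
    (p : ℕ) (hp : p.Prime)
    (f : V) (hf : f ∈ L) (hfp : ¬ ∃ g ∈ L, f = (p : ℤ) • g)
    (a : ι → ℤ)
    (ha : ∀ i, ∃ g ∈ L, T i f - (a i) • f = (p : ℤ) • g) :
    ∃ (g : V) (c : ι → integralClosure ℤ ℂ) (𝔪' : Ideal (integralClosure ℤ ℂ)),
      g ≠ 0 ∧ 𝔪'.IsMaximal ∧ ((p : ℕ) : integralClosure ℤ ℂ) ∈ 𝔪' ∧
      ∀ i, T i g = ((c i : integralClosure ℤ ℂ) : ℂ) • g ∧
        c i - ((a i : ℤ) : integralClosure ℤ ℂ) ∈ 𝔪' := by
  classical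
  haveI hfd : FiniteDimensional ℂ V := finiteDimensional_of_fg_span L hLfg hspan
  set A : Subalgebra ℤ (Module.End ℂ V) := Algebra.adjoin ℤ (Set.range T) with hAdef
  have hcommS : ∀ x ∈ Set.range T, ∀ y ∈ Set.range T, x * y = y * x := by
    rintro _ ⟨i, rfl⟩ _ ⟨j, rfl⟩
    exact (hcomm i j).eq
  haveI hAcomm : IsMulCommutative A := Algebra.isMulCommutative_adjoin ℤ hcommS
  have hpres : ∀ t ∈ A, ∀ v ∈ L, t v ∈ L := fun t ht =>
    (adjoin_structure L T hL p f a ha t ht).1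
  haveI hAfin : Module.Finite ℤ ↥A := adjoin_moduleFinite L T hLfg hspan hpres
  haveI hAint : Algebra.IsIntegral ℤ ↥A := Algebra.IsIntegral.of_finite ℤ ↥A
  -- commutation of elements of A
  have hAc : ∀ s ∈ (A : Set (Module.End ℂ V)), ∀ t ∈ (A : Set (Module.End ℂ V)), Commute s t := by
    intro s hs t ht
    have := mul_comm (⟨s, hs⟩ : A) ⟨t, ht⟩
    exact congrArg Subtype.val this
  -- the eigenvector
  obtain ⟨g, hg0, hgeig, hgker⟩ := exists_eigenvector_ker_imp (A : Set (Module.End ℂ V)) hAc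
    (fun s hs t ht => A.mul_mem hs ht) A.one_mem (ModP L p f)
    (by
      rintro ⟨g, hg, h⟩
      exact hfp ⟨g, hg, by simpa using h⟩)
    ⟨0, L.zero_mem, by simp⟩
    (fun s hs t ht => not_modP_mul L T hL p hp f hf hfp a ha s hs t ht)
  -- the character
  have hχex : ∀ t : A, ∃ c : ℂ, (t : Module.End ℂ V) g = c • g := fun t => hgeig t t.2
  choose χ hχ using hχex
  have hinj : ∀ c c' : ℂ, c • g = c' • g → c = c' := fun c c' h =>
    smul_left_injective ℂ hg0 h
  let χr : A →+* ℂ :=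
    { toFun := χ
      map_one' := hinj _ _ (by rw [← hχ, one_smul]; rfl)
      map_mul' := fun s t => hinj _ _ (by
        have h1 : ((s * t : A) : Module.End ℂ V) g = (s : Module.End ℂ V) ((t : Module.End ℂ V) g) := rfl
        rw [← hχ, h1, hχ t, map_smul, hχ s, smul_smul, mul_comm])
      map_zero' := hinj _ _ (by rw [← hχ, zero_smul]; rfl)
      map_add' := fun s t => hinj _ _ (by
        rw [← hχ, add_smul, ← hχ s, ← hχ t]
        rfl) }
  have hχr : ∀ t : A, (t : Module.End ℂ V) g = χr t • g := hχ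
  -- the prime ideal
  let 𝔪 : Ideal A :=
    { carrier := {t | ModP L p f (t : Module.End ℂ V)}
      zero_mem' := ⟨0, L.zero_mem, by simp⟩
      add_mem' := by
        rintro s t ⟨g, hg, hs⟩ ⟨g', hg', ht⟩
        refine ⟨g + g', L.add_mem hg hg', ?_⟩
        show ((s : Module.End ℂ V) + (t : Module.End ℂ V)) f = _
        rw [LinearMap.add_apply, hs, ht, smul_add]
      smul_mem' := by
        rintro s t ⟨g, hg, ht⟩
        refine ⟨(s : Module.End ℂ V) g, hpres s s.2 g hg, ?_⟩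
        show ((s : Module.End ℂ V) * (t : Module.End ℂ V)) f = _
        rw [Module.End.mul_apply, ht, map_zsmul] }
  have hmem𝔪 : ∀ t : A, t ∈ 𝔪 ↔ ModP L p f (t : Module.End ℂ V) := fun t => Iff.rfl
  haveI h𝔪prime : 𝔪.IsPrime := by
    refine ⟨?_, ?_⟩
    · intro htop
      have h1 : (1 : A) ∈ 𝔪 := htop ▸ Submodule.mem_top
      obtain ⟨g, hg, h⟩ := (hmem𝔪 1).1 h1
      exact hfp ⟨g, hg, by simpa using h⟩
    · intro s t hst
      by_contra hcon
      push Not at hcon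
      exact not_modP_mul L T hL p hp f hf hfp a ha s s.2 t t.2 hcon.1 hcon.2 hst
  have hker : RingHom.ker χr ≤ 𝔪 := by
    intro t ht
    rw [RingHom.mem_ker] at ht
    refine hgker t t.2 ?_
    rw [hχr t, ht, zero_smul]
  obtain ⟨χ', 𝔪', hχ', h𝔪'max, h𝔪'⟩ := exists_maximal_over χr 𝔪 hker
  refine ⟨g, fun i => χ' ⟨T i, Algebra.subset_adjoin ⟨i, rfl⟩⟩, 𝔪', hg0, h𝔪'max, ?_, ?_⟩
  · have hp𝔪 : ((p : ℕ) : A) ∈ 𝔪 := by
      refine ⟨f, hf, ?_⟩
      simp
    have := h𝔪' _ hp𝔪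
    simpa using this
  · intro i
    refine ⟨?_, ?_⟩
    · rw [hχ']
      exact hχr ⟨T i, Algebra.subset_adjoin ⟨i, rfl⟩⟩
    · have hi𝔪 : (⟨T i, Algebra.subset_adjoin ⟨i, rfl⟩⟩ - ((a i : ℤ) : A) : A) ∈ 𝔪 := by
        obtain ⟨g, hg, hgi⟩ := ha i
        refine ⟨g, hg, ?_⟩
        rw [← hgi]
        simp
      have := h𝔪' _ hi𝔪
      simpa using this

end Main


end Fermat.Agent.S49A
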