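import Fermat.Statements.S49
import Fermat.Prelude.Thm_ModularFormClass_qCoeff_heckeT
import Fermat.Prelude.Thm_ModularFormClass_qCoeff_heckeU
import Fermat.Prelude.Def_ModularForm_HeckeOperatorForms
import Fermat.Prelude.Thm_CongruenceSubgroup_one_mem_strictPeriods_Gamma0

/-!
# S49, part B: from a simultaneous Hecke eigenvector to a normalised eigenform

Main result: `Fermat.Agent.S49B.exists_normalized_eigenform_of_eigenvector`.
-/

set_option autoImplicit false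

namespace Fermat.Agent.S49B

section Formal

variable {R : Type*} [CommRing R]

/-- Prime power recursion from the eigensystem relations. -/
theorem eigensystem_prime_pow {e a : ℕ → R} (h : FormalHecke.IsEigensystem e a)
    (ℓ r : ℕ) (hℓ : ℓ.Prime) :
    a (ℓ ^ (r + 2)) = a ℓ * a (ℓ ^ (r + 1)) - e ℓ * a (ℓ ^ r) := by
  have h1 := h.2 ℓ hℓ (ℓ ^ (r + 1))
  have hd : ℓ ∣ ℓ ^ (r + 1) := dvd_pow_self ℓ (Nat.succ_ne_zero r)
  rw [if_pos hd] at h1
  have hdiv : ℓ ^ (r + 1) / ℓ = ℓ ^ r := by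
    rw [pow_succ]; exact Nat.mul_div_cancel _ hℓ.pos
  rw [hdiv] at h1
  have hmul : ℓ * ℓ ^ (r + 1) = ℓ ^ (r + 2) := by ring
  rw [hmul] at h1
  rw [← h1]; ring

/-- Multiplicativity from the eigensystem relations. -/
theorem eigensystem_mul_of_coprime {e a : ℕ → R} (h : FormalHecke.IsEigensystem e a) :
    ∀ m n : ℕ, m.Coprime n → a (m * n) = a m * a n := by
  intro m
  induction m using Nat.strong_induction_on with
  | _ m ih =>
    intro n hmn
    rcases Nat.eq_zero_or_pos m with hm0 | hmpos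
    · subst hm0
      have hn1 : n = 1 := by simpa using hmn
      subst hn1
      simp [h.1]
    rcases Nat.eq_or_lt_of_le (Nat.one_le_iff_ne_zero.mpr hmpos.ne') with hm1 | hm1
    · rw [← hm1]; simp [h.1]
    -- m ≥ 2
    have hm2 : m ≠ 1 := by omega
    set ℓ := m.minFac with hℓdef
    have hℓ : ℓ.Prime := Nat.minFac_prime hm2
    obtain ⟨m', hm'⟩ : ℓ ∣ m := Nat.minFac_dvd m
    have hm'pos : 0 < m' := by
      rcases Nat.eq_zero_or_pos m' with h0 | h0
      · rw [h0, mul_zero] at hm'; omega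
      · exact h0
    have hm'lt : m' < m := by
      rw [hm']
      calc m' = 1 * m' := (one_mul _).symm
        _ < ℓ * m' := Nat.mul_lt_mul_of_pos_right hℓ.one_lt hm'pos
    have hcopℓ : ℓ.Coprime n := Nat.Coprime.coprime_dvd_left ⟨m', hm'⟩ hmn
    have hcopm' : m'.Coprime n := Nat.Coprime.coprime_dvd_left ⟨ℓ, by rw [hm', mul_comm]⟩ hmn
    have hℓn : ¬ ℓ ∣ n := fun hd => by
      have := Nat.Coprime.eq_one_of_dvd hcopℓ hd
      exact hℓ.one_lt.ne' this
    have e1 := h.2 ℓ hℓ (m' * n)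
    have e2 := h.2 ℓ hℓ m'
    have ih1 := ih m' hm'lt n hcopm'
    have key : a (ℓ * (m' * n)) = a (ℓ * m') * a n := by
      by_cases hd : ℓ ∣ m'
      · have hd' : ℓ ∣ m' * n := Dvd.dvd.mul_right hd n
        rw [if_pos hd'] at e1
        rw [if_pos hd] at e2
        obtain ⟨m'', hm''⟩ := hd
        have hm''lt : m'' < m := by
          have : m'' ≤ m' := by
            rw [hm'']; exact Nat.le_mul_of_pos_left _ hℓ.pos
          omega
        have hcopm'' : m''.Coprime n :=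
          Nat.Coprime.coprime_dvd_left ⟨ℓ, by rw [hm'', mul_comm]⟩ hcopm'
        have ih2 := ih m'' hm''lt n hcopm''
        have hdiv1 : m' * n / ℓ = m'' * n := by
          rw [hm'', mul_assoc]; exact Nat.mul_div_cancel_left _ hℓ.pos
        have hdiv2 : m' / ℓ = m'' := by
          rw [hm'']; exact Nat.mul_div_cancel_left _ hℓ.pos
        rw [hdiv1, ih2, ih1] at e1
        rw [hdiv2] at e2
        have e1' : a (ℓ * (m' * n)) = a ℓ * (a m' * a n) - e ℓ * (a m'' * a n) := by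
          rw [← e1]; ring
        have e2' : a (ℓ * m') = a ℓ * a m' - e ℓ * a m'' := by
          rw [← e2]; ring
        rw [e1', e2']; ring
      · have hd' : ¬ ℓ ∣ m' * n := fun hdd =>
          (hℓ.dvd_mul.mp hdd).elim hd hℓn
        rw [if_neg hd', mul_zero, add_zero, ih1] at e1
        rw [if_neg hd, mul_zero, add_zero] at e2
        rw [e1, e2]; ring
    rw [hm', mul_assoc, key]

theorem eigensystem_isRecursive {e a : ℕ → R} (h : FormalHecke.IsEigensystem e a) :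
    FormalHecke.IsRecursive e a :=
  ⟨h.1, eigensystem_mul_of_coprime h, fun ℓ r hℓ => eigensystem_prime_pow h ℓ r hℓ⟩

/-- If `c` satisfies the (unnormalised) Hecke relations and `c 0 = 0`, `c 1 = 0`
then `c` vanishes identically. -/
theorem eq_zero_of_hecke_relations {e lam c : ℕ → R} (h0 : c 0 = 0) (h1 : c 1 = 0)
    (hrel : ∀ ℓ : ℕ, ℓ.Prime → ∀ n : ℕ,
      c (ℓ * n) + e ℓ * (if ℓ ∣ n then c (n / ℓ) else 0) = lam ℓ * c n) :
    ∀ n, c n = 0 := by
  intro n
  induction n using Nat.strong_induction_on with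
  | _ n ih =>
    rcases Nat.eq_zero_or_pos n with hn0 | hnpos
    · rw [hn0]; exact h0
    rcases Nat.eq_or_lt_of_le (Nat.one_le_iff_ne_zero.mpr hnpos.ne') with hn1 | hn1
    · rw [← hn1]; exact h1
    have hn2 : n ≠ 1 := by omega
    set ℓ := n.minFac
    have hℓ : ℓ.Prime := Nat.minFac_prime hn2
    obtain ⟨m, hm⟩ : ℓ ∣ n := Nat.minFac_dvd n
    have hmpos : 0 < m := by
      rcases Nat.eq_zero_or_pos m with h0' | h0'
      · rw [h0', mul_zero] at hm; omega
      · exact h0'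
    have hmlt : m < n := by
      rw [hm]
      calc m = 1 * m := (one_mul _).symm
        _ < ℓ * m := Nat.mul_lt_mul_of_pos_right hℓ.one_lt hmpos
    have e1 := hrel ℓ hℓ m
    have hdivlt : m / ℓ < n := lt_of_le_of_lt (Nat.div_le_self _ _) hmlt
    rw [ih m hmlt, ih (m / ℓ) hdivlt] at e1
    rw [hm]
    simpa using e1


end Formal

section Forms

open CongruenceSubgroup UpperHalfPlane ModularFormClass

variable {N : ℕ}

theorem qCoeff_add' (f g : CuspForm (Gamma0 N) 2) (n : ℕ) :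
    qCoeff (⇑(f + g)) n = qCoeff ⇑f n + qCoeff ⇑g n := by
  unfold qCoeff
  rw [FunLike.coe_add, ModularForm.qExpansion_add one_pos (one_mem_strictPeriods_Gamma0 N) f g]
  simp

theorem qCoeff_smul' (c : ℂ) (f : CuspForm (Gamma0 N) 2) (n : ℕ) :
    qCoeff (⇑(c • f)) n = c * qCoeff ⇑f n := by
  unfold qCoeff
  rw [FunLike.coe_smul,
    ModularForm.qExpansion_smul one_pos (one_mem_strictPeriods_Gamma0 N) c f]
  simp

theorem qCoeff_neg' (f : CuspForm (Gamma0 N) 2) (n : ℕ) :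
    qCoeff (⇑(-f)) n = - qCoeff ⇑f n := by
  have := qCoeff_smul' (-1) f n
  simpa using this

theorem qCoeff_sub' (f g : CuspForm (Gamma0 N) 2) (n : ℕ) :
    qCoeff (⇑(f - g)) n = qCoeff ⇑f n - qCoeff ⇑g n := by
  rw [sub_eq_add_neg, qCoeff_add', qCoeff_neg', sub_eq_add_neg]

theorem qCoeff_zero_eq (f : CuspForm (Gamma0 N) 2) : qCoeff ⇑f 0 = 0 :=
  CuspFormClass.qExpansion_coeff_zero f one_pos (one_mem_strictPeriods_Gamma0 N)

theorem eq_zero_of_forall_qCoeff (f : CuspForm (Gamma0 N) 2) (h : ∀ n, qCoeff ⇑f n = 0) :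
    f = 0 := by
  have hq : qExpansion 1 (⇑f) = 0 := by
    ext n
    simpa [qCoeff] using h n
  have hper := SlashInvariantFormClass.periodic_comp_ofComplex f (one_mem_strictPeriods_Gamma0 N)
  have : Fact (IsCusp OnePoint.infty (Subgroup.map (Matrix.SpecialLinearGroup.mapGL ℝ) (Gamma0 N))) :=
    ⟨Subgroup.isCusp_of_mem_strictPeriods one_pos (one_mem_strictPeriods_Gamma0 N)⟩
  have := (UpperHalfPlane.qExpansion_eq_zero_iff one_pos hper (holo f) (bdd_at_infty f)).mp hq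
  exact DFunLike.coe_injective this

theorem qCoeff_heckeTLin {ℓ : ℕ} (hℓ : ℓ.Prime) (hℓN : ¬ ℓ ∣ N) (f : CuspForm (Gamma0 N) 2)
    (n : ℕ) :
    qCoeff (⇑(CuspForm.heckeTLin 2 hℓ hℓN f)) n
      = qCoeff ⇑f (ℓ * n) + (ℓ : ℂ) * (if ℓ ∣ n then qCoeff ⇑f (n / ℓ) else 0) := by
  rw [CuspForm.coe_heckeTLin_apply,
    ModularFormClass.qCoeff_heckeT f (one_mem_strictPeriods_Gamma0 N) hℓ.ne_zero n,
    ModularForm.coeffHeckeT_apply, mul_comm n ℓ]
  split_ifs <;> simp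

theorem qCoeff_heckeULin [NeZero N] {q : ℕ} (hq : q.Prime) (hqN : q ∣ N)
    (f : CuspForm (Gamma0 N) 2) (n : ℕ) :
    qCoeff (⇑(CuspForm.heckeULin 2 hqN f)) n = qCoeff ⇑f (q * n) := by
  rw [CuspForm.coe_heckeULin_apply,
    ModularFormClass.qCoeff_heckeU f (one_mem_strictPeriods_Gamma0 N) hq.ne_zero n,
    ModularForm.coeffHeckeU_apply, mul_comm n q]


/-- The weight-two Hecke "character" `e ℓ = ℓ` for `ℓ ∤ N` and `0` for `ℓ ∣ N`. -/
noncomputable def heckeE (N : ℕ) (ℓ : ℕ) : ℂ := if ℓ ∣ N then 0 else (ℓ : ℂ)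

/-- Auxiliary form of the main theorem. -/
theorem exists_normalized_eigenform_aux [NeZero N]
    (v : CuspForm (Gamma0 N) 2) (hv : v ≠ 0) (lam : ℕ → ℂ)
    (hT : ∀ (l : ℕ) (hl : l.Prime) (hlN : ¬ l ∣ N), CuspForm.heckeTLin 2 hl hlN v = lam l • v)
    (hU : ∀ (q : ℕ) (_hq : q.Prime) (hqN : q ∣ N), CuspForm.heckeULin 2 hqN v = lam q • v) :
    ∃ f : CuspForm (Gamma0 N) 2, f.IsNormalizedEigenform ∧
      ∀ l : ℕ, l.Prime → qCoeff ⇑f l = lam l := by

  -- Hecke relations on the coefficients of `v`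
  have hrel : ∀ ℓ : ℕ, ℓ.Prime → ∀ n : ℕ,
      qCoeff ⇑v (ℓ * n) + heckeE N ℓ * (if ℓ ∣ n then qCoeff ⇑v (n / ℓ) else 0)
        = lam ℓ * qCoeff ⇑v n := by
    intro ℓ hℓ n
    by_cases hℓN : ℓ ∣ N
    · have h1 := congrArg (fun g : CuspForm (Gamma0 N) 2 => qCoeff ⇑g n) (hU ℓ hℓ hℓN)
      simp only [qCoeff_heckeULin hℓ hℓN, qCoeff_smul'] at h1
      simp [heckeE, hℓN, h1]
    · have h1 := congrArg (fun g : CuspForm (Gamma0 N) 2 => qCoeff ⇑g n) (hT ℓ hℓ hℓN)
      simp only [qCoeff_heckeTLin hℓ hℓN, qCoeff_smul'] at h1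
      simp only [heckeE, if_neg hℓN]
      exact h1
  -- the first coefficient is nonzero
  have hc1 : qCoeff ⇑v 1 ≠ 0 := by
    intro h1
    exact hv (eq_zero_of_forall_qCoeff v
      (eq_zero_of_hecke_relations (qCoeff_zero_eq v) h1 hrel))
  set c := qCoeff ⇑v 1 with hc
  set f : CuspForm (Gamma0 N) 2 := c⁻¹ • v with hf
  have hfn : ∀ n, qCoeff ⇑f n = c⁻¹ * qCoeff ⇑v n := fun n => qCoeff_smul' _ _ _
  have hf1 : qCoeff ⇑f 1 = 1 := by rw [hfn, ← hc]; exact inv_mul_cancel₀ hc1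
  have hflam : ∀ l : ℕ, l.Prime → qCoeff ⇑f l = lam l := by
    intro l hl
    have h1 := hrel l hl 1
    have hl1 : ¬ l ∣ 1 := fun h => hl.one_lt.ne' (Nat.dvd_one.mp h)
    rw [if_neg hl1, mul_zero, add_zero, mul_one] at h1
    rw [hfn, h1, ← hc]
    field_simp
  have heig : FormalHecke.IsEigensystem (heckeE N) (fun n => qCoeff ⇑f n) := by
    refine ⟨hf1, fun ℓ hℓ n => ?_⟩
    have h1 := hrel ℓ hℓ n
    show qCoeff ⇑f (ℓ * n) + heckeE N ℓ * (if ℓ ∣ n then qCoeff ⇑f (n / ℓ) else 0)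
      = qCoeff ⇑f ℓ * qCoeff ⇑f n
    rw [hflam ℓ hℓ]
    simp only [hfn]
    have : c⁻¹ * qCoeff (⇑v) (ℓ * n) +
        heckeE N ℓ * (if ℓ ∣ n then c⁻¹ * qCoeff (⇑v) (n / ℓ) else 0)
        = c⁻¹ * (qCoeff ⇑v (ℓ * n) + heckeE N ℓ * (if ℓ ∣ n then qCoeff ⇑v (n / ℓ) else 0)) := by
      split_ifs <;> ring
    rw [this, h1]; ring
  have hrec := eigensystem_isRecursive heig
  refine ⟨f, ⟨hf1, hrec.2.1, ?_, ?_⟩, hflam⟩
  · intro p r hp hpN
    have := hrec.2.2 p r hp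
    simpa [heckeE, hpN] using this
  · intro p r hp hpN
    have := hrec.2.2 p r hp
    simpa [heckeE, hpN] using this

/-- (A) A simultaneous eigenvector of all `T_ℓ` (`ℓ ∤ N`) and `U_q` (`q ∣ N`) yields a normalised
eigenform with the same eigenvalues as prime-indexed `q`-coefficients. -/
theorem exists_normalized_eigenform_of_eigenvector
    {N : ℕ} [NeZero N] (g : CuspForm (Gamma0 N) 2) (hg : g ≠ 0)
    (c : ℕ → ℂ)
    (hT : ∀ (ℓ : ℕ) (hℓ : ℓ.Prime) (hℓN : ¬ ℓ ∣ N), CuspForm.heckeTLin 2 hℓ hℓN g = c ℓ • g)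
    (hU : ∀ (q : ℕ) (_ : q.Prime) (hqN : q ∣ N), CuspForm.heckeULin 2 hqN g = c q • g) :
    ∃ f : CuspForm (Gamma0 N) 2, f.IsNormalizedEigenform ∧
      ∀ ℓ : ℕ, ℓ.Prime → ModularFormClass.qCoeff f ℓ = c ℓ := by
  exact exists_normalized_eigenform_aux g hg c hT hU

end Forms

end Fermat.Agent.S49B
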